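import Fermat.Agent.A2.H93.CoverSplit
import Fermat.Agent.A2.H313.Hens
import Mathlib.RingTheory.Valuation.LocalSubring
import Mathlib.RingTheory.Valuation.Integral
import Mathlib.RingTheory.Valuation.ValuationRing

/-!
# A2 / ALG / GLUE, `hconst` part, step 4: constants of a split Kummer extension

`R` henselian DVR with algebraically closed residue field, `E = Frac R` of characteristic `0`,
`F ⊇ E` a field with a discrete valuation subring `V ⊇ R` with uniformiser `w` (the uniformiser of
`R`), `m` invertible in `R`, `u ∈ 1 + w V`, `L = F(z)` with `z ^ m = u`.  Then every element of `L`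
which is integral over `R` lies in `R` (`const_of_dvr`).

Proof: extend `V` to a valuation subring `W` of `L` (Chevalley,
`Ideal.image_subset_nonunits_valuationSubring`); then `W ∩ F = V` and, by `H93.CoverSplit`
(route G, C2), the maximal ideal of `W` is `w W`; conclude by `H313.hens_integral`.
-/

set_option autoImplicit false
set_option linter.unusedSectionVars false
set_option linter.style.haveILetI false

open IsLocalRing

namespace Fermat.Agent.A2.Alg.H348

open Fermat.Agent.A2.H93

section Ext

variable {F L : Type*} [Field F] [Field L] [Algebra F L]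

/-- **Chevalley extension** of a valuation subring with principal maximal ideal, with
`W ∩ F = V`. -/
theorem exists_valuationSubring_ext (V : ValuationSubring F) (w : F) (hw_inv : w⁻¹ ∉ V)
    (hw_gen : ∀ f ∈ V, f⁻¹ ∉ V → f * w⁻¹ ∈ V) :
    ∃ W : ValuationSubring L, (∀ f : F, algebraMap F L f ∈ W ↔ f ∈ V) ∧
      algebraMap F L w ∈ W.nonunits := by
  have hw0 : w ≠ 0 := by
    rintro rfl
    apply hw_inv
    rw [inv_zero]
    exact V.zero_mem
  have hwV : w ∈ V := (V.mem_or_inv_mem w).resolve_right hw_inv
  set A : Subring L := V.toSubring.map (algebraMap F L) with hA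
  have hmemA : ∀ {f : F}, f ∈ V → algebraMap F L f ∈ A := fun {f} hf => ⟨f, hf, rfl⟩
  set wA : A := ⟨algebraMap F L w, hmemA hwV⟩ with hwA
  have hI : Ideal.span ({wA} : Set A) ≠ ⊤ := by
    rw [Ne, Ideal.span_singleton_eq_top]
    intro hu
    obtain ⟨a, ha⟩ := hu.exists_right_inv
    obtain ⟨v, hv, hva⟩ := a.2
    have h1 : algebraMap F L w * algebraMap F L v = 1 := by
      have h0 : algebraMap F L w * (a : L) = 1 := congrArg Subtype.val ha
      rw [hva]
      exact h0
    have h2 : w * v = 1 := by
      apply (algebraMap F L).injective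
      rw [map_mul, h1, map_one]
    apply hw_inv
    rw [inv_eq_of_mul_eq_one_right h2]
    exact hv
  obtain ⟨W, hAW, hIW⟩ := Ideal.image_subset_nonunits_valuationSubring _ hI
  have hwW : algebraMap F L w ∈ W.nonunits :=
    hIW ⟨wA, Ideal.mem_span_singleton_self _, rfl⟩
  refine ⟨W, fun f => ⟨fun hf => ?_, fun hf => hAW (hmemA hf)⟩, hwW⟩
  by_contra hfV
  have hf0 : f ≠ 0 := by
    rintro rfl
    exact hfV V.zero_mem
  have hfi : f⁻¹ ∈ V := (V.mem_or_inv_mem f).resolve_left hfV
  have hv : f⁻¹ * w⁻¹ ∈ V := hw_gen _ hfi (by rwa [inv_inv])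
  have h1 : algebraMap F L f * (algebraMap F L w * algebraMap F L (f⁻¹ * w⁻¹)) = 1 := by
    rw [← map_mul, ← map_mul, ← map_one (algebraMap F L)]
    congr 1
    field_simp
  have h2 : W.valuation (algebraMap F L f) ≤ 1 := (W.valuation_le_one_iff _).2 hf
  have h3 : W.valuation (algebraMap F L w) < 1 := (W.mem_nonunits_iff).1 hwW
  have h4 : W.valuation (algebraMap F L (f⁻¹ * w⁻¹)) ≤ 1 :=
    (W.valuation_le_one_iff _).2 (hAW (hmemA hv))
  have h5 : W.valuation (algebraMap F L f * (algebraMap F L w * algebraMap F L (f⁻¹ * w⁻¹)))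
      < 1 := by
    rw [map_mul, map_mul]
    calc W.valuation (algebraMap F L f) *
          (W.valuation (algebraMap F L w) * W.valuation (algebraMap F L (f⁻¹ * w⁻¹)))
        ≤ 1 * (W.valuation (algebraMap F L w) * 1) := by gcongr
      _ = W.valuation (algebraMap F L w) := by rw [one_mul, mul_one]
      _ < 1 := h3
  rw [h1, map_one] at h5
  exact lt_irrefl _ h5

end Ext

section Const

/-- **Constants of a split Kummer extension.** -/
theorem const_of_dvr {R : Type*} (E : Type*) {F L : Type*}
    [CommRing R] [IsDomain R] [IsDiscreteValuationRing R]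
    [HenselianLocalRing R] [IsAlgClosed (ResidueField R)]
    [Field E] [CharZero E] [Algebra R E] [IsFractionRing R E]
    [Field F] [Algebra E F] [Algebra R F] [IsScalarTower R E F]
    [Field L] [Algebra F L] [Algebra E L] [Algebra R L] [IsScalarTower R E L]
    [IsScalarTower R F L]
    (w : R) (hw : Irreducible w) (V : ValuationSubring F)
    (hRV : ∀ r : R, algebraMap R F r ∈ V)
    (hw_inv : (algebraMap R F w)⁻¹ ∉ V)
    (hw_gen : ∀ f ∈ V, f⁻¹ ∉ V → f * (algebraMap R F w)⁻¹ ∈ V)
    (hw_disc : ∀ f : F, ∃ k : ℕ, f * algebraMap R F w ^ k ∈ V)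
    (m : ℕ) (hm : 0 < m) (ζ : R) (hζ : IsPrimitiveRoot ζ m) (hmu : IsUnit (m : R))
    (u : F) (hu : u ∈ V) (hu' : u⁻¹ ∈ V) (hu1 : (u - 1) * (algebraMap R F w)⁻¹ ∈ V)
    (z : L) (hz : z ^ m = algebraMap F L u) (hgen : Algebra.adjoin F ({z} : Set L) = ⊤)
    (y : L) (hy : IsIntegral R y) : y ∈ Set.range (algebraMap R L) := by
  have hinjRE : Function.Injective (algebraMap R E) := IsFractionRing.injective R E
  have hinjRF : Function.Injective (algebraMap R F) := by
    rw [IsScalarTower.algebraMap_eq R E F]
    exact (algebraMap E F).injective.comp hinjRE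
  obtain ⟨W, hext, hwW⟩ := exists_valuationSubring_ext (L := L) V (algebraMap R F w) hw_inv hw_gen
  have hRL : ∀ r : R, algebraMap R L r = algebraMap F L (algebraMap R F r) := fun r =>
    IsScalarTower.algebraMap_apply R F L r
  have hu0 : u ≠ 0 := by
    rintro rfl
    apply hw_inv
    have : (algebraMap R F w)⁻¹ = -(((0 : F) - 1) * (algebraMap R F w)⁻¹) := by ring
    rw [this]
    exact V.neg_mem _ hu1
  have D : CoverSplit V W (algebraMap R F w) m (algebraMap R F ζ) (fun _ : Unit => z)
      (fun _ => u) (fun _ => 1) :=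
    { ext := hext
      w_inv_notMem := hw_inv
      w_gen := hw_gen
      w_disc := hw_disc
      zeta := hζ.map_of_injective hinjRF
      m_pos := hm
      m_inv := by
        obtain ⟨r, hr⟩ := hmu.exists_right_inv
        have h1 : (m : F) * algebraMap R F r = 1 := by
          rw [← map_natCast (algebraMap R F), ← map_mul, hr, map_one]
        rw [inv_eq_of_mul_eq_one_right h1]
        exact hRV r
      pow_eq := fun _ => hz
      g_mem := fun _ => hu
      g_ne_zero := fun _ => hu0
      g_inv := fun _ => hu'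
      c_mem := fun _ => V.one_mem
      cong := fun _ => by rw [one_pow]; exact hu1
      gen := by rw [Set.range_const]; exact hgen }
  have hRW : ∀ r : R, algebraMap R L r ∈ W := fun r => by
    rw [hRL]; exact (hext _).2 (hRV r)
  have hw1 : algebraMap R L w ∈ W.nonunits := by rw [hRL]; exact hwW
  have hw2 : ∀ x ∈ W.nonunits, ∃ t ∈ W, x = algebraMap R L w * t := by
    intro x hx
    have hxv : W.valuation x < 1 := (W.mem_nonunits_iff).1 hx
    have hxW : x ∈ W := (W.valuation_le_one_iff _).1 hxv.le
    rcases eq_or_ne x 0 with rfl | hx0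
    · exact ⟨0, W.zero_mem, by rw [mul_zero]⟩
    · have hxi : x⁻¹ ∉ W := inv_notMem_of_val_lt_one W hx0 hxv
      refine ⟨x * (algebraMap F L (algebraMap R F w))⁻¹, D.mul_inv_mem hxW hxi, ?_⟩
      rw [hRL]
      have := D.φw_ne_zero
      field_simp
  -- `y ∈ W`
  have hyW : y ∈ W := by
    let ι : R →+* W := (algebraMap R L).codRestrict W.toSubring hRW
    have h1 : IsIntegral W y := by
      have := IsIntegral.map_of_comp_eq (R := R) (S := L) (T := W) (U := L) ι (RingHom.id L)
        (by ext r; rfl) hy
      simpa using this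
    obtain ⟨y', hy'⟩ := (IsIntegrallyClosed.isIntegral_iff (R := W) (K := L)).1 h1
    rw [← hy']
    exact y'.2
  obtain ⟨b, hb⟩ := Fermat.Agent.A2.H313.hens_integral (E := E) w hw W hRW hw1 hw2 y hyW
    (hy.isAlgebraic.extendScalars hinjRE)
  exact ⟨b, hb⟩

end Const

end Fermat.Agent.A2.Alg.H348
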