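import Fermat.Agent.A2.H552.Hensel
import Mathlib.RingTheory.RootsOfUnity.EnoughRootsOfUnity
import Mathlib.RingTheory.RootsOfUnity.AlgebraicallyClosed

/-!
# A2 / ALG / GLUE, `hconst` part, step 3: roots of unity in a henselian local ring

`R` henselian local with algebraically closed residue field of characteristic `q ∤ m`:
`m` is a unit of `R` and `R` contains a primitive `m`-th root of unity.
-/

set_option autoImplicit false
set_option linter.unusedSectionVars false

open Polynomial IsLocalRing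

namespace Fermat.Agent.A2.Alg.H348

variable {R : Type*} [CommRing R] [IsLocalRing R]

theorem natCast_residue_ne_zero (q m : ℕ) (hq : q.Prime) (hqR : (q : R) ∈ maximalIdeal R)
    (hqm : ¬ q ∣ m) : (m : ResidueField R) ≠ 0 := by
  intro hm0
  apply hqm
  have h1 : ((q : ℕ) : ResidueField R) = 0 := by
    rw [← map_natCast (residue R)]
    exact (residue_eq_zero_iff _).mpr hqR
  have hdq : ringChar (ResidueField R) ∣ q := ringChar.dvd h1
  have hdm : ringChar (ResidueField R) ∣ m := ringChar.dvd hm0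
  rcases (Nat.dvd_prime hq).mp hdq with h | h
  · exact absurd h CharP.ringChar_ne_one
  · rwa [h] at hdm

theorem isUnit_natCast (q m : ℕ) (hq : q.Prime) (hqR : (q : R) ∈ maximalIdeal R)
    (hqm : ¬ q ∣ m) : IsUnit (m : R) := by
  rw [← IsLocalRing.notMem_maximalIdeal]
  intro h
  apply natCast_residue_ne_zero (R := R) q m hq hqR hqm
  rw [← map_natCast (residue R)]
  exact (residue_eq_zero_iff _).mpr h

theorem exists_primitiveRoot [HenselianLocalRing R] [IsAlgClosed (ResidueField R)] (q m : ℕ)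
    (hq : q.Prime) (hqR : (q : R) ∈ maximalIdeal R) (hm : 0 < m) (hqm : ¬ q ∣ m) :
    ∃ ζ : R, IsPrimitiveRoot ζ m := by
  have hmk := natCast_residue_ne_zero (R := R) q m hq hqR hqm
  haveI : NeZero (m : ResidueField R) := ⟨hmk⟩
  obtain ⟨ζ₀, hζ₀⟩ := HasEnoughRootsOfUnity.exists_primitiveRoot (ResidueField R) m
  have hζ₀0 : ζ₀ ≠ 0 := hζ₀.ne_zero hm.ne'
  obtain ⟨ζ, hζ, hres⟩ := Fermat.Agent.A2.H552.exists_root_of_residue_simple_root
    (X ^ m - C (1 : R)) (monic_X_pow_sub_C 1 hm.ne') ζ₀
    (by simp [hζ₀.pow_eq_one])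
    (by
      simp only [Polynomial.map_sub, Polynomial.map_pow, map_X, map_C, derivative_sub,
        derivative_X_pow, derivative_C, sub_zero, eval_mul, eval_C, eval_pow, eval_X]
      exact mul_ne_zero hmk (pow_ne_zero _ hζ₀0))
  have hpow : ζ ^ m = 1 := by
    have : (X ^ m - C (1 : R) : R[X]).eval ζ = 0 := hζ
    simpa [sub_eq_zero] using this
  refine ⟨ζ, ⟨hpow, fun l hl => ?_⟩⟩
  apply hζ₀.dvd_of_pow_eq_one
  rw [← hres, ← map_pow, hl, map_one]

end Fermat.Agent.A2.Alg.H348
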