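import Fermat.Agent.A2.Alg.H348.ChartComp
import Fermat.Agent.A2.Alg.H348.Roots
import Fermat.Agent.A2.Alg.H348.ConstDvr

/-!
# A2 / ALG / GLUE, the `hconst` part

`hconst_of_locallyFactored`: in the setting of the leaf `glue` of `Alg/Skel.lean` (only ONE chart
`B` with its `SSChart` and its local factorisations is used), constants do not grow in the residue
fields of the Kummer algebra `F[X]/(X ^ m - u)`:  this is EXACTLY the hypothesis `hconst` of
`Fermat.Agent.A2.H348.exists_pow_eq_of_local_factorisation`.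

Proof: `V₁ = B_{p₁}` is a discrete valuation ring with uniformiser `w` (`ChartComp.lean`),
`u ∈ 1 + w V₁` (local factorisation at a closed point of the component `p₁`), so `V₁` is unramified
in every residue field `L` of the Kummer algebra and `E` is algebraically closed in `L`
(`ConstDvr.lean`: Chevalley + `H93.CoverSplit` + `H313.hens_integral`).
-/

set_option autoImplicit false
set_option linter.unusedSectionVars false
set_option linter.style.haveILetI false

open Polynomial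

namespace Fermat.Agent.A2.Alg.H348

open Fermat.Agent.A2 Fermat.Agent.A2.Alg Fermat.Agent.A2.H348

section One

variable {R F : Type*} [CommRing R] [Field F] [Algebra R F]
  {A B : Subalgebra R F} {p p' : Ideal B} [hp : p.IsPrime] {w : R}

/-- `p B_p = w B_p`. -/
theorem CompData.mul_inv_mem_of_mem (D : CompData A B p p' w) {d : B} (hd : d ∈ p) :
    (d : F) * (algebraMap R F w)⁻¹ ∈ locAt B p := by
  obtain ⟨t, ht', ht⟩ := D.exists_notMem
  have hdt : d * t ∈ p ⊓ p' := ⟨p.mul_mem_right _ hd, p'.mul_mem_left _ ht'⟩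
  rw [D.inf_eq, Ideal.mem_span_singleton'] at hdt
  obtain ⟨c, hc⟩ := hdt
  refine ⟨t, ht, ?_⟩
  have hc' : (c : F) * algebraMap R F w = (d : F) * (t : F) := congrArg Subtype.val hc
  have : (t : F) * ((d : F) * (algebraMap R F w)⁻¹) = c := by
    rw [← mul_assoc, mul_comm (t : F) d, ← hc', mul_assoc, mul_inv_cancel₀ D.w_ne, mul_one]
  rw [this]
  exact c.2

/-- `LocOne B n I v` with `I ⊆ p ⊆ n` gives `v ∈ 1 + w B_p`. -/
theorem CompData.one_of_locOne (D : CompData A B p p' w) {n I : Ideal B} (hpn : p ≤ n)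
    (hI : I ≤ p) {v : F} (h : LocOne B n I v) :
    ∃ t ∈ locAt B p, v = 1 + algebraMap R F w * t := by
  obtain ⟨a, b, hb, hab, hv⟩ := h
  have hbp : b ∉ p := fun h => hb (hpn h)
  have hb0 : (b : F) ≠ 0 := coe_ne_zero_of_notMem p hbp
  have h1 := D.mul_inv_mem_of_mem (hI hab)
  refine ⟨((a - b : B) : F) * (algebraMap R F w)⁻¹ * (b : F)⁻¹,
    (locAt B p).mul_mem h1 (inv_mem_locAt p hbp), ?_⟩
  have hw := D.w_ne
  have hv' : v = (a : F) * (b : F)⁻¹ := by
    rw [← hv]; field_simp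
  rw [hv']
  push_cast
  field_simp
  ring

theorem CompData.one_mul (D : CompData A B p p' w) {v v' : F}
    (h : ∃ t ∈ locAt B p, v = 1 + algebraMap R F w * t)
    (h' : ∃ t ∈ locAt B p, v' = 1 + algebraMap R F w * t) :
    ∃ t ∈ locAt B p, v * v' = 1 + algebraMap R F w * t := by
  obtain ⟨t, ht, rfl⟩ := h
  obtain ⟨t', ht', rfl⟩ := h'
  refine ⟨t + t' + algebraMap R F w * t * t', ?_, by ring⟩
  exact (locAt B p).add_mem ((locAt B p).add_mem ht ht')
    ((locAt B p).mul_mem ((locAt B p).mul_mem ((locAt B p).algebraMap_mem w) ht) ht')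

theorem CompData.one_pow (D : CompData A B p p' w) {v : F}
    (h : ∃ t ∈ locAt B p, v = 1 + algebraMap R F w * t) (k : ℕ) :
    ∃ t ∈ locAt B p, v ^ k = 1 + algebraMap R F w * t := by
  induction k with
  | zero => exact ⟨0, (locAt B p).zero_mem, by simp⟩
  | succ k ih =>
    rw [pow_succ]
    exact D.one_mul ih h

theorem CompData.one_inv (D : CompData A B p p' w) {v : F}
    (h : ∃ t ∈ locAt B p, v = 1 + algebraMap R F w * t) :
    v⁻¹ ∈ locAt B p ∧ ∃ t ∈ locAt B p, v⁻¹ = 1 + algebraMap R F w * t := by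
  obtain ⟨t, ht, rfl⟩ := h
  have h1 : (1 + algebraMap R F w * t)⁻¹ ∈ locAt B p :=
    one_add_mul_inv_mem_locAt p D.w_mem ht
  have hne : (1 + algebraMap R F w * t) ≠ 0 := by
    intro h0
    apply D.w_inv_notMem
    have h2 : algebraMap R F w * (-t) = 1 := by linear_combination -h0
    rw [inv_eq_of_mul_eq_one_right h2]
    exact (locAt B p).neg_mem ht
  refine ⟨h1, -(t * (1 + algebraMap R F w * t)⁻¹),
    (locAt B p).neg_mem ((locAt B p).mul_mem ht h1), ?_⟩
  field_simp
  ring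

end One

section Main

variable {R E F : Type*} [CommRing R] [IsDomain R] [IsDiscreteValuationRing R]
  [HenselianLocalRing R] [IsAlgClosed (IsLocalRing.ResidueField R)]
  [Field E] [CharZero E] [Algebra R E] [IsFractionRing R E]
  [Field F] [Algebra E F] [Algebra R F] [IsScalarTower R E F]

/-- `u ∈ 1 + w B_{p₁}` for a locally factored `u`. -/
theorem one_of_locallyFactored {w : R} {x : F} {B : Subalgebra R F} (hB : ChartCtx E w x B)
    (c : SSChart w B) {m : ℕ} {u : F} (hf : LocallyFactored B c m u) :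
    haveI := c.prime₁
    ∃ t ∈ locAt B c.p₁, u = 1 + algebraMap R F w * t := by
  haveI := c.prime₁
  have D := compData₁ hB c
  obtain ⟨n, hn, hpn⟩ := Ideal.exists_le_maximal c.p₁ c.prime₁.ne_top
  obtain ⟨h, hh0, hLO, hO1, -⟩ := hf n hn (hpn D.w_mem)
  have hspan : Ideal.span {algebraMap R B w} ≤ c.p₁ := by
    rw [Ideal.span_le, Set.singleton_subset_iff]
    exact D.w_mem
  have h1 := D.one_of_locOne hpn hspan hLO
  have h2 := D.one_of_locOne le_rfl le_rfl hO1
  have h3 := (D.one_inv (D.one_pow h2 m)).2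
  have h4 := D.one_mul h1 h3
  have : u * h ^ m * (h ^ m)⁻¹ = u := by
    rw [mul_assoc, mul_inv_cancel₀ (pow_ne_zero _ hh0), mul_one]
  rwa [this] at h4

/-- **The `hconst` part of GLUE.** -/
theorem hconst_of_locallyFactored (q m : ℕ) (hq : q.Prime)
    (hqR : (q : R) ∈ IsLocalRing.maximalIdeal R) (hm : 0 < m) (hqm : ¬ q ∣ m)
    (w : R) (x : F) (B : Subalgebra R F) (hB : ChartCtx E w x B) (c : SSChart w B)
    (u : F) (hf : LocallyFactored B c m u) :
    ∀ 𝔫 : Ideal (AdjoinRoot (X ^ m - C u : F[X])), 𝔫.IsMaximal →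
      ∀ y : AdjoinRoot (X ^ m - C u : F[X]) ⧸ 𝔫, IsIntegral R y →
        y ∈ Set.range (algebraMap R (AdjoinRoot (X ^ m - C u : F[X]) ⧸ 𝔫)) := by
  intro 𝔫 h𝔫 y hy
  haveI := c.prime₁
  have D := compData₁ hB c
  have hAB := adjoin_le_of_ctx hB
  letI : Field (AdjoinRoot (X ^ m - C u : F[X]) ⧸ 𝔫) := Ideal.Quotient.field 𝔫
  obtain ⟨ζ, hζ⟩ := exists_primitiveRoot (R := R) q m hq hqR hm hqm
  have hmu := isUnit_natCast (R := R) q m hq hqR hqm
  obtain ⟨t, ht, hut⟩ := one_of_locallyFactored hB c hf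
  have hw0 := D.w_ne
  have huV : u ∈ locAt B c.p₁ := by
    rw [hut]
    exact (locAt B c.p₁).add_mem (locAt B c.p₁).one_mem
      ((locAt B c.p₁).mul_mem ((locAt B c.p₁).algebraMap_mem w) ht)
  have hu' : u⁻¹ ∈ locAt B c.p₁ := (D.one_inv ⟨t, ht, hut⟩).1
  have hu1 : (u - 1) * (algebraMap R F w)⁻¹ ∈ locAt B c.p₁ := by
    have : (u - 1) * (algebraMap R F w)⁻¹ = t := by
      rw [hut]; field_simp; ring
    rw [this]; exact ht
  have hz : (Ideal.Quotient.mk 𝔫 (AdjoinRoot.root (X ^ m - C u : F[X]))) ^ m =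
      algebraMap F (AdjoinRoot (X ^ m - C u : F[X]) ⧸ 𝔫) u := by
    have h := AdjoinRoot.eval₂_root (X ^ m - C u : F[X])
    rw [eval₂_sub, eval₂_pow, eval₂_X, eval₂_C, sub_eq_zero] at h
    rw [← map_pow, h]
    rfl
  have hgen : Algebra.adjoin F
      ({Ideal.Quotient.mk 𝔫 (AdjoinRoot.root (X ^ m - C u : F[X]))} :
        Set (AdjoinRoot (X ^ m - C u : F[X]) ⧸ 𝔫)) = ⊤ := by
    have h1 : (Ideal.Quotient.mkₐ F 𝔫) '' {AdjoinRoot.root (X ^ m - C u : F[X])} =
        {Ideal.Quotient.mk 𝔫 (AdjoinRoot.root (X ^ m - C u : F[X]))} := by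
      rw [Set.image_singleton]; rfl
    rw [← h1, ← AlgHom.map_adjoin, AdjoinRoot.adjoinRoot_eq_top, Algebra.map_top,
      AlgHom.range_eq_top]
    exact Ideal.Quotient.mkₐ_surjective F 𝔫
  exact const_of_dvr E w hB.hw (D.valuationSubring hAB)
    (fun r => (locAt B c.p₁).algebraMap_mem r) D.w_inv_notMem
    (fun f hf hf' => D.mul_inv_mem hf hf') (D.exists_mul_pow_mem hAB) m hm ζ hζ hmu u huV hu' hu1
    (Ideal.Quotient.mk 𝔫 (AdjoinRoot.root (X ^ m - C u : F[X]))) hz hgen y hy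

end Main

end Fermat.Agent.A2.Alg.H348
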