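import Fermat.Agent.A2.Alg.H729.Glue
import Fermat.Agent.A2.Alg.H348.HConst

/-!
# WALL A2 / ALG — leaf GLUE (`glue` of `Alg/Skel.lean`, architect helper34), VERBATIM

`glue` = `Alg.H729.glue_of_hconst` (helper729: Gauss ring, bridge `SSChart` ↔ Gauss ring, local
factorisations, `H348.exists_pow_eq_of_local_factorisation`) + `hconst_of_locallyFactored`
(helper348: `B_{p₁}` is a discrete valuation ring with uniformiser `w`, unramified in the Kummer
cover, hence the constants do not grow: Chevalley + `H93.CoverSplit` + `H313.hens_integral`).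
-/

set_option autoImplicit false

namespace Fermat.Agent.A2.Alg.H348

open Fermat.Agent.A2 Fermat.Agent.A2.Alg

variable {R E F : Type*} [CommRing R] [IsDomain R] [IsDiscreteValuationRing R]
  [HenselianLocalRing R] [IsAlgClosed (IsLocalRing.ResidueField R)]
  [Field E] [CharZero E] [Algebra R E] [IsFractionRing R E]
  [Field F] [Algebra E F] [Algebra R F] [IsScalarTower R E F]

/-- **GLUE.**  A Kummer class which is locally factored at every closed point of the special
fibre of both charts is trivial. -/
theorem glue (q m : ℕ) (hq : q.Prime) (hqR : (q : R) ∈ IsLocalRing.maximalIdeal R)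
    (hm : 0 < m) (hqm : ¬ q ∣ m)
    (w : R) (x : F) (Bf Bi : Subalgebra R F)
    (hBf : ChartCtx E w x Bf) (hBi : ChartCtx E w x⁻¹ Bi)
    (cf : SSChart w Bf) (ci : SSChart w Bi) (hcf : Incomparable cf) (hci : Incomparable ci)
    (u : F) (hu : u ≠ 0) (hdiv : DivisibleDiv E m u)
    (hf : LocallyFactored Bf cf m u) (hi : LocallyFactored Bi ci m u) :
    ∃ y : F, y ≠ 0 ∧ u = y ^ m :=
  Fermat.Agent.A2.Alg.H729.glue_of_hconst q m hq hqR hm hqm w x Bf Bi hBf hBi cf ci hcf hci u hu
    hdiv hf hi (hconst_of_locallyFactored q m hq hqR hm hqm w x Bf hBf cf u hf)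

end Fermat.Agent.A2.Alg.H348
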